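import Fermat.Agent.LT.T7.H227.CovolSpec
import Fermat.Agent.LT.T7.H600.Topo
import Fermat.Agent.LT.H11.LC
import Fermat.Agent.LT.A2.H138.PushHaar

/-!
# Row LT, tower T7, leaf T7.14.3c.S `H227.SliceC227` (spare, helper138)

OFF-MAIN.  `sliceC138 K : H227.SliceC227 K`, VERBATIM against `LT/T7/H227/CovolSpec.lean`
(helper227, sha256 52f0b3fe53f9).

For a Haar measure `μ` of `𝔸² = Fin 2 → Adl K` the measure `A ↦ μ (U ∩ pairOf671 ⁻¹' A)` of
`(K_∞)²` (`U` = the rows which are integral at every finite place) is `c · volume` with
`0 < c < ∞`.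

Route: `pushMeas_eq_smul138` (`LT/A2/H138/PushHaar.lean`, Mathlib only) with `G = 𝔸²`,
`W = U` (an open subgroup), `P = pairOf671` (continuous, additive), the section
`(K_∞)² → 𝔸²` = extension by zero at the finite places, and `W ∩ ker P` contained in the compact
set `({0} × ∏_v 𝒪_v)²`.  `c ≠ 0` because `U` is open and not empty.
Topology (`U` open, `pairOf671` continuous): `LT/T7/H600/Topo.lean` (helper600, byte copy);
compactness of `𝒪_v`: `LT/H11/LC.lean` (helper11, byte copy).
-/

set_option autoImplicit false
set_option linter.unusedSectionVars false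
set_option linter.style.haveILetI false

open NumberField NumberField.mixedEmbedding NumberField.InfinitePlace IsDedekindDomain
  MeasureTheory Set
open scoped ENNReal NNReal Matrix RestrictedProduct Classical

noncomputable section

namespace Fermat.Agent.LT.T7.H138

open Fermat.Agent.LT.H556 Fermat.Agent.LT.H556.A0 Fermat.Agent.LT.T7.Rigid
  Fermat.Agent.LT.T7.H671 Fermat.Agent.LT.T7 Fermat.Agent.LT.H11 Fermat.Agent.LT.A2.H138

variable (K : Type) [Field K] [NumberField K]

/-- The integral rows, as a subgroup. -/
def rowsW138 : AddSubgroup (Fin 2 → Adl K) where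
  carrier := H227.intRows227 K
  zero_mem' := isIntRow671_zero
  add_mem' := fun ha hb => isIntRow671_add ha hb
  neg_mem' := fun ha => isIntRow671_neg ha

theorem coe_rowsW138 : (rowsW138 K : Set (Fin 2 → Adl K)) = H227.intRows227 K := rfl

/-- `pairOf671` as an additive homomorphism. -/
def pairHom138 : (Fin 2 → Adl K) →+ Pair671 K where
  toFun := pairOf671
  map_zero' := pairOf671_zero
  map_add' := pairOf671_add

theorem pairHom_apply138 (r : Fin 2 → Adl K) : pairHom138 K r = pairOf671 r := rfl

variable {K}

/-- The section of `ringEquiv_mixedSpace`, place by place. -/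
def secInf138 (m : mixedSpace K) : InfiniteAdeleRing K := fun v =>
  if h : IsReal v then (Completion.isometryEquivRealOfIsReal h).symm (m.1 ⟨v, h⟩)
  else (Completion.isometryEquivComplexOfIsComplex (not_isReal_iff_isComplex.1 h)).symm
    (m.2 ⟨v, not_isReal_iff_isComplex.1 h⟩)

theorem secInf_of_real138 (m : mixedSpace K) {v : InfinitePlace K} (h : IsReal v) :
    secInf138 m v = (Completion.isometryEquivRealOfIsReal h).symm (m.1 ⟨v, h⟩) := by
  unfold secInf138
  rw [dif_pos h]

theorem secInf_of_complex138 (m : mixedSpace K) {v : InfinitePlace K} (h : IsComplex v) :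
    secInf138 m v = (Completion.isometryEquivComplexOfIsComplex h).symm (m.2 ⟨v, h⟩) := by
  unfold secInf138
  rw [dif_neg (not_isReal_iff_isComplex.2 h)]

theorem continuous_secInf138 : Continuous (secInf138 (K := K)) := by
  refine continuous_pi fun v => ?_
  by_cases h : IsReal v
  · have hEq : (fun m : mixedSpace K => secInf138 m v)
        = fun m => (Completion.isometryEquivRealOfIsReal h).symm (m.1 ⟨v, h⟩) := by
      funext m
      exact secInf_of_real138 m h
    rw [hEq]
    exact (Completion.isometryEquivRealOfIsReal h).symm.continuous.comp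
      ((continuous_apply _).comp continuous_fst)
  · have h' : IsComplex v := not_isReal_iff_isComplex.1 h
    have hEq : (fun m : mixedSpace K => secInf138 m v)
        = fun m => (Completion.isometryEquivComplexOfIsComplex h').symm (m.2 ⟨v, h'⟩) := by
      funext m
      exact secInf_of_complex138 m h'
    rw [hEq]
    exact (Completion.isometryEquivComplexOfIsComplex h').symm.continuous.comp
      ((continuous_apply _).comp continuous_snd)

theorem ringEquiv_secInf138 (m : mixedSpace K) :
    InfiniteAdeleRing.ringEquiv_mixedSpace K (secInf138 m) = m := by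
  rw [InfiniteAdeleRing.ringEquiv_mixedSpace_apply]
  refine Prod.ext ?_ ?_
  · funext v
    change Completion.extensionEmbeddingOfIsReal v.2 (secInf138 m v.1) = m.1 v
    rw [secInf_of_real138 m v.2]
    exact (Completion.isometryEquivRealOfIsReal v.2).apply_symm_apply _
  · funext v
    change Completion.extensionEmbedding v.1 (secInf138 m v.1) = m.2 v
    rw [secInf_of_complex138 m v.2]
    exact (Completion.isometryEquivComplexOfIsComplex v.2).apply_symm_apply _

/-- The adele with infinite part `secInf138 m` and finite part `0`. -/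
def secAd138 (m : mixedSpace K) : Adl K := (secInf138 m, 0)

theorem continuous_secAd138 : Continuous (secAd138 (K := K)) :=
  continuous_secInf138.prodMk continuous_const

theorem infMixed_secAd138 (m : mixedSpace K) : infMixed671 (secAd138 m) = m :=
  ringEquiv_secInf138 m

/-- The section of `pairOf671`: extension by zero at the finite places. -/
def secRow138 (p : Pair671 K) : Fin 2 → Adl K := ![secAd138 p.1, secAd138 p.2]

theorem continuous_secRow138 : Continuous (secRow138 (K := K)) := by
  refine continuous_pi fun j => ?_
  fin_cases j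
  · exact continuous_secAd138.comp continuous_fst
  · exact continuous_secAd138.comp continuous_snd

theorem pairOf_secRow138 (p : Pair671 K) : pairOf671 (secRow138 p) = p := by
  unfold pairOf671
  refine Prod.ext ?_ ?_
  · exact infMixed_secAd138 p.1
  · exact infMixed_secAd138 p.2

theorem secRow_mem138 (p : Pair671 K) : secRow138 p ∈ rowsW138 K := by
  intro v j
  fin_cases j
  · exact zero_mem _
  · exact zero_mem _

variable (K)

/-- The integral finite adeles. -/
def intFin138 : Set (FiniteAdeleRing (𝓞 K) K) :=
  {a | ∀ v, a v ∈ v.adicCompletionIntegers K}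

theorem isCompact_intFin138 : IsCompact (intFin138 K) := by
  haveI : ∀ v : HeightOneSpectrum (𝓞 K), CompactSpace (v.adicCompletionIntegers K) :=
    fun v => LC.compactSpace_integers_h11 K v
  have h := isCompact_range
    (RestrictedProduct.isEmbedding_structureMap
      (R := fun v : HeightOneSpectrum (𝓞 K) => v.adicCompletion K)
      (A := fun v => (v.adicCompletionIntegers K : Set (v.adicCompletion K)))
      (𝓕 := Filter.cofinite)).continuous
  rw [RestrictedProduct.range_structureMap] at h
  exact h

/-- `{0} × ∏_v 𝒪_v`. -/
def kerAd138 : Set (Adl K) := ({0} : Set (InfiniteAdeleRing K)) ×ˢ intFin138 K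

theorem isCompact_kerAd138 : IsCompact (kerAd138 K) :=
  isCompact_singleton.prod (isCompact_intFin138 K)

/-- A compact set containing `W ∩ ker P`. -/
def kerRow138 : Set (Fin 2 → Adl K) := Set.pi Set.univ fun _ => kerAd138 K

theorem isCompact_kerRow138 : IsCompact (kerRow138 K) :=
  isCompact_univ_pi fun _ => isCompact_kerAd138 K

variable {K}

theorem infMixed_eq_zero138 {a : Adl K} (h : infMixed671 a = 0) : a.1 = 0 := by
  unfold infMixed671 at h
  exact (map_eq_zero_iff _ (InfiniteAdeleRing.ringEquiv_mixedSpace K).injective).1 h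

theorem mem_kerRow138 (r : Fin 2 → Adl K) (hW : r ∈ rowsW138 K) (hP : pairHom138 K r = 0) :
    r ∈ kerRow138 K := by
  rw [pairHom_apply138] at hP
  have h0 : infMixed671 (r 0) = 0 := congrArg Prod.fst hP
  have h1 : infMixed671 (r 1) = 0 := congrArg Prod.snd hP
  intro j _
  have hj : (r j).1 = 0 := by
    fin_cases j
    · exact infMixed_eq_zero138 h0
    · exact infMixed_eq_zero138 h1
  exact ⟨hj, fun v => hW v j⟩

variable (K)

/-- The volume of `(K_∞)²`. -/
def volPair138 : Measure (Pair671 K) := volume

theorem isAddHaar_volPair138 : (volPair138 K).IsAddHaarMeasure :=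
  Measure.prod.instIsAddHaarMeasure (volume : Measure (mixedSpace K))
    (volume : Measure (mixedSpace K))

/-- **T7.14.3c.S (slice).** -/
theorem sliceC138 : H227.SliceC227 K := by
  letI : MeasurableSpace (Fin 2 → Adl K) := borel (Fin 2 → Adl K)
  haveI : BorelSpace (Fin 2 → Adl K) := ⟨rfl⟩
  intro μ hμ
  haveI := hμ
  haveI := isAddHaar_volPair138 K
  have hP : Continuous (pairHom138 K) := H600.continuous_pairOf600 K
  obtain ⟨κ, hκ⟩ := pushMeas_eq_smul138 (H := Pair671 K) μ (volPair138 K) (rowsW138 K)
    (pairHom138 K) hP secRow138 continuous_secRow138 pairOf_secRow138 secRow_mem138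
    (kerRow138 K) (isCompact_kerRow138 K) mem_kerRow138
  have hval : ∀ A : Set (Pair671 K), MeasurableSet A →
      μ (H227.intRows227 K ∩ pairOf671 ⁻¹' A) = (κ : ℝ≥0∞) * volume A := by
    intro A hA
    have h := congrArg (fun m : Measure (Pair671 K) => m A) hκ
    simp only [pushMeas_apply138 μ hP.measurable hA, Measure.smul_apply, ENNReal.smul_def,
      smul_eq_mul] at h
    rw [Set.inter_comm]
    exact h
  refine ⟨(κ : ℝ≥0∞), ?_, ENNReal.coe_ne_top, hval⟩
  intro hz
  have h := hval Set.univ MeasurableSet.univ
  rw [hz, zero_mul, Set.preimage_univ, Set.inter_univ] at h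
  have hne : (H227.intRows227 K).Nonempty := ⟨0, isIntRow671_zero⟩
  exact (H600.isOpen_intRows600 K).measure_ne_zero μ hne h

end Fermat.Agent.LT.T7.H138

end
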